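import Fermat.Agent.S41.Input.Ell

/-!
# S41 / Input / NonEis : `E[p]` irreducible is not Eisenstein (general `E/ℚ`)
-/

set_option autoImplicit false

namespace Fermat.Agent.S41.Input

open Fermat.Agent.GAL Fermat.Agent.MR.Glue
open WeierstrassCurve WeierstrassCurve.Affine WeierstrassCurve.Affine.Point

/-- There is a prime outside any finite set with `a_ℓ(E) ≢ ℓ + 1 (mod p)`. -/
theorem exists_prime_ne (E : WeierstrassCurve ℚ) {p : ℕ} (hE : E.Δ ≠ 0) (hp : p.Prime) (hp2 : p ≠ 2)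
    (hirr : GaloisRepIsIrreducible (K := AlgebraicClosure ℚ) ℚ E p)
    (W : WeierstrassCurve ℤ) (hW : W.IsIntegralModelOf E) (B : Finset ℕ) :
    ∃ ℓ : ℕ, ℓ.Prime ∧ ℓ ∉ B ∧ ¬ (p : ℤ) ∣ W.apOfModel ℓ - ℓ - 1 := by
  have : Fact p.Prime := ⟨hp⟩
  obtain ⟨S, hS⟩ := frobMod_Ep E hE hp.pos W hW
  obtain ⟨ℓ, hℓ, hℓB, h⟩ := exists_prime_not_eisenstein
    Fermat.Agent.Lib.FrobDensity.gal_frobeniusDensity hp2
    (B := S ∪ B) ⟨hS.tors, hS.cont, fun ℓ hℓ hℓB => hS.frob ℓ hℓ fun hm => hℓB (Finset.mem_union_left B hm)⟩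
    (irr_Ep E hirr) (dim_Ep E hE hp)
  exact ⟨ℓ, hℓ, fun hm => hℓB (Finset.mem_union_right _ hm), h⟩

end Fermat.Agent.S41.Input
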