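import Fermat.Agent.Lib.Cheb.Main
import Fermat.Agent.GAL.Cyclo

/-!
# S41 / Input / Cheb : Chebotarev for an involution

`exists_frob_eq_invol` : `F/ℚ` finite, `c ∈ G_ℚ` an involution, `T` a finite set of primes: there are a prime `r ∉ T`, a place `A ∣ r` of
`ℚ̄` and a Frobenius element `σ` at `A` which agrees with `c` on `F`.  (`Lib/Cheb` with `C = {c}`.)
-/

set_option autoImplicit false

namespace Fermat.Agent.S41.Input

open Filter Topology

theorem exists_frob_eq_invol (F : IntermediateField ℚ (AlgebraicClosure ℚ)) [FiniteDimensional ℚ F]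
    (c : AlgebraicClosure ℚ ≃ₐ[ℚ] AlgebraicClosure ℚ) (hc : c * c = 1) (T : Finset ℕ) :
    ∃ (r : ℕ) (A : ValuationSubring (AlgebraicClosure ℚ))
      (σ : AlgebraicClosure ℚ ≃ₐ[ℚ] AlgebraicClosure ℚ),
      r.Prime ∧ r ∉ T ∧ A.LiesOverPrime r ∧ A.IsFrobeniusAt σ r ∧ ∀ x ∈ F, σ x = c x := by
  have hnorm := Fermat.Agent.GAL.Cyclo.normal_Qb inferInstance
  let L : IntermediateField ℚ (AlgebraicClosure ℚ) :=
    IntermediateField.normalClosure ℚ F (AlgebraicClosure ℚ)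
  have hLfin : FiniteDimensional ℚ L := normalClosure.is_finiteDimensional ℚ F (AlgebraicClosure ℚ)
  have hLnorm : Normal ℚ L := normalClosure.normal ℚ F (AlgebraicClosure ℚ)
  have hFL : F ≤ L := IntermediateField.le_normalClosure F
  let φ : (AlgebraicClosure ℚ ≃ₐ[ℚ] AlgebraicClosure ℚ) →* (L ≃ₐ[ℚ] L) :=
    AlgEquiv.restrictNormalHom L
  have hcont : Continuous φ := InfiniteGalois.restrictNormalHom_continuous L
  have hsurj : Function.Surjective φ := AlgEquiv.restrictNormalHom_surjective (AlgebraicClosure ℚ)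
  have hX : (0 : ℝ) < Nat.card (L ≃ₐ[ℚ] L) := by exact_mod_cast Nat.card_pos
  have hinv : ∀ x ∈ ({φ c} : Set (L ≃ₐ[ℚ] L)), x⁻¹ ∈ ({φ c} : Set (L ≃ₐ[ℚ] L)) := by
    intro x hx
    rw [Set.mem_singleton_iff] at hx ⊢
    rw [hx, inv_eq_iff_mul_eq_one, ← map_mul, hc, map_one]
  have key := Fermat.Agent.Lib.Cheb.chebSymm (L ≃ₐ[ℚ] L) φ hcont hsurj {φ c} hinv T
    (1 / (2 * Nat.card (L ≃ₐ[ℚ] L))) (by positivity)
  have h2 : ∀ᶠ s in 𝓝[>] (1 : ℝ), s < 2 :=
    eventually_nhdsWithin_of_eventually_nhds (eventually_lt_nhds (by norm_num))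
  have h1 : ∀ᶠ s in 𝓝[>] (1 : ℝ), 1 < s := eventually_mem_nhdsWithin
  obtain ⟨s, ⟨S, hS, hle⟩, hs2, hs1⟩ := (key.and (h2.and h1)).exists
  have hcard : (Nat.card ({φ c} : Set (L ≃ₐ[ℚ] L)) : ℝ) = 1 := by simp
  have hpos : 0 < ((Nat.card ({φ c} : Set (L ≃ₐ[ℚ] L)) : ℝ) / Nat.card (L ≃ₐ[ℚ] L)
      - 1 / (2 * Nat.card (L ≃ₐ[ℚ] L))) * Real.log (1 / (s - 1)) := by
    apply mul_pos
    · rw [hcard, sub_pos]
      apply one_div_lt_one_div_of_lt hX
      linarith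
    · apply Real.log_pos
      rw [lt_div_iff₀ (by linarith)]
      linarith
  have hne : S.Nonempty := by
    rw [Finset.nonempty_iff_ne_empty]
    intro h0
    rw [h0, Finset.sum_empty] at hle
    linarith
  obtain ⟨r, hr⟩ := hne
  obtain ⟨hrp, hrT, A, σ, hA, hσ, hC⟩ := hS r hr
  refine ⟨r, A, σ, hrp, hrT, hA, hσ, fun x hx => ?_⟩
  rw [Set.mem_singleton_iff] at hC
  have h3 := AlgEquiv.restrictNormal_commutes σ L ⟨x, hFL hx⟩
  have h4 := AlgEquiv.restrictNormal_commutes c L ⟨x, hFL hx⟩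
  have h5 : σ.restrictNormal L = c.restrictNormal L := hC
  rw [h5, h4] at h3
  exact h3.symm

end Fermat.Agent.S41.Input
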