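import Fermat.Agent.S41.Input.Ell
import Fermat.Agent.S41.Input.Cheb
import Fermat.Agent.MR.Glue.Frob
import Fermat.Agent.MR.Glue.In

/-!
# S41 / Input / Main : the three contracts of `S41/Input/Contract.lean`

`blrStatement : BLRStatement`, `auxStatement : AuxStatement`, `x0Statement : X0Statement`.
-/

set_option autoImplicit false

namespace Fermat.Agent.S41.Input

open AlgebraicCurve ModularCurve Fermat.Agent.S24 Fermat.Agent.GAL Fermat.Agent.MR.Glue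
open Fermat.Agent.GAL.Tors
open CuspForm CongruenceSubgroup ModularFormClass
open WeierstrassCurve WeierstrassCurve.Affine WeierstrassCurve.Affine.Point

/-- **(I2)** -/
theorem blrStatement : BLRStatement := by
  intro E _ W hW p hp hp2 hirr n _ S U hU0 hUle hUst
  have : NeZero p := ⟨hp.ne_zero⟩
  have hE : E.Δ ≠ 0 := E.isUnit_Δ.ne_zero
  let _ := stableAction U hUst
  obtain ⟨F, hF1, hF2⟩ := kv_cont n p
  have hFM : FrobMod p (fun ℓ => W.apOfModel ℓ) (S ∪ (n * p).primeFactors) U := by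
    refine ⟨fun y => Subtype.ext (KV.nsmul_eq_zero y.1), ⟨F, hF1, fun σ hσ y => Subtype.ext (hF2 σ hσ y.1)⟩,
      ?_⟩
    intro ℓ hℓ hℓB A hA σ hσ y
    apply Subtype.ext
    have : NeZero ℓ := ⟨hℓ.ne_zero⟩
    rw [Finset.mem_union, not_or] at hℓB
    have h1 : ¬ ℓ ∣ n * p := fun h2 =>
      hℓB.2 (Nat.mem_primeFactors.mpr ⟨hℓ, h2, mul_ne_zero (NeZero.ne n) hp.ne_zero⟩)
    have h3 := kv_frob n p ℓ hℓ (fun h4 => h1 (h4.mul_right _)) (fun h4 => h1 (h4.mul_left n)) A hA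
      σ hσ y.1
    rw [hUle (hUst σ y.1 y.2) ℓ hℓ (fun h4 => h1 (h4.mul_right _)) hℓB.1] at h3
    change σ • σ • y.1 - W.apOfModel ℓ • σ • y.1 + (ℓ : ℤ) • y.1 = 0
    rw [natCast_zsmul]
    exact h3
  have : Nontrivial U := (AddSubgroup.nontrivial_iff_ne_bot U).mpr hU0
  obtain ⟨φ, h1, h2⟩ := embed_Ep E hE hp hp2 hirr W hW hFM
  refine ⟨(⊤ : AddSubgroup (Ep E p)).map (U.subtype.comp φ), ?_, ?_⟩
  · rintro _ ⟨x, -, rfl⟩
    exact (φ x).2
  · refine (good_Ep E hE hp hp2 W hW hirr).map (U.subtype.comp φ) (fun σ x _ => ?_) (fun x _ hx => ?_)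
    · exact congrArg Subtype.val (h2 σ x)
    · apply h1
      rw [_root_.map_zero]
      exact Subtype.ext hx

/-- **(I3)** -/
theorem auxStatement : AuxStatement := by
  intro p hp n _ B
  have : NeZero p := ⟨hp.ne_zero⟩
  have : Fact p.Prime := ⟨hp⟩
  obtain ⟨c, hc⟩ : ∃ c : GQ, IsConj c := Cyclo.exists_conj_inv
  obtain ⟨F₁, hF₁, h₁⟩ := kv_cont n p
  obtain ⟨F₃, hF₃, h₃⟩ := Cyclo.epsK_cont p (ZMod p)
  obtain ⟨r, A, φ, hr, hrB, hA, hφ, hag⟩ := exists_frob_eq_invol (F₁ ⊔ F₃) c hc.1 (B ∪ {p})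
  have hrB' : r ∉ B := fun h => hrB (Finset.mem_union_left _ h)
  have hrp : r ≠ p := fun h => hrB (Finset.mem_union_right _ (Finset.mem_singleton.mpr h))
  refine ⟨c, r, A, φ, hc, hr, hrB', hA, hφ, ?_, ?_⟩
  · have h4 : Cyclo.epsK p (ZMod p) (c⁻¹ * φ) = 1 := by
      apply h₃
      intro x hx
      rw [AlgEquiv.mul_apply, hag x ((le_sup_right : F₃ ≤ F₁ ⊔ F₃) hx), ← AlgEquiv.mul_apply,
        inv_mul_cancel, AlgEquiv.one_apply]
    have h5 : Cyclo.epsK p (ZMod p) c = Cyclo.epsK p (ZMod p) φ := by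
      rw [map_mul, map_inv, inv_mul_eq_one] at h4
      exact h4
    have h6 : ((Cyclo.epsK p (ZMod p) φ : (ZMod p)ˣ) : ZMod p) = r :=
      Cyclo.epsK_frobenius p (ZMod p) hr hrp hA hφ
    have h7 : ((Cyclo.epsK p (ZMod p) c : (ZMod p)ˣ) : ZMod p) = -1 := dP_conj hc
    rw [← h5, h7] at h6
    rw [← ZMod.intCast_zmod_eq_zero_iff_dvd]
    push_cast
    rw [← h6, neg_add_cancel]
  · intro x
    have h1 : (c⁻¹ * φ) • x = x := by
      apply h₁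
      intro y hy
      rw [AlgEquiv.mul_apply, hag y ((le_sup_left : F₁ ≤ F₁ ⊔ F₃) hy), ← AlgEquiv.mul_apply,
        inv_mul_cancel, AlgEquiv.one_apply]
    rw [mul_smul] at h1
    calc φ • x = c • c⁻¹ • φ • x := by rw [smul_smul, mul_inv_cancel, one_smul]
      _ = c • x := by rw [h1]

/-- an integer in a maximal ideal of `ℤ̄` containing `p` is divisible by `p`. -/
theorem dvd_of_intCast_mem {p : ℕ} (hp : p.Prime) (𝔪 : Ideal (integralClosure ℤ ℂ)) (h𝔪 : 𝔪.IsMaximal)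
    (hpm : (p : integralClosure ℤ ℂ) ∈ 𝔪) (n : ℤ) (hn : (n : integralClosure ℤ ℂ) ∈ 𝔪) : (p : ℤ) ∣ n := by
  by_contra hnd
  have hcop : IsCoprime (p : ℤ) n :=
    (Prime.coprime_iff_not_dvd (Nat.prime_iff_prime_int.mp hp)).mpr hnd
  obtain ⟨u, v, huv⟩ := hcop
  apply h𝔪.ne_top
  rw [Ideal.eq_top_iff_one]
  have h1 : ((u * p + v * n : ℤ) : integralClosure ℤ ℂ) = 1 := by rw [huv, Int.cast_one]
  rw [← h1]
  push_cast
  exact 𝔪.add_mem (𝔪.mul_mem_left _ hpm) (𝔪.mul_mem_left _ hn)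

/-- **(I1)** -/
theorem x0Statement : X0Statement := by
  intro W hΔ p N q' _ _ hp hq' hq'N f 𝔪 hf h𝔪 hpm hcong hLR
  have : Fact p.Prime := ⟨hp⟩
  have : NeZero p := ⟨hp.ne_zero⟩
  obtain ⟨b, hb1, hb2⟩ := hLR
  -- the sign
  obtain ⟨e, he, hbe⟩ : ∃ e : ℤ, (e = 1 ∨ e = -1) ∧
      b - ((e * (q' + 1) : ℤ) : integralClosure ℤ ℂ) ∈ 𝔪 := by
    have h1 : (b - ((q' : integralClosure ℤ ℂ) + 1)) * (b + ((q' : integralClosure ℤ ℂ) + 1)) ∈ 𝔪 := by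
      have : (b - ((q' : integralClosure ℤ ℂ) + 1)) * (b + ((q' : integralClosure ℤ ℂ) + 1)) =
          b ^ 2 - ((q' : integralClosure ℤ ℂ) + 1) ^ 2 := by ring
      rw [this]
      exact hb2
    rcases h𝔪.isPrime.mem_or_mem h1 with h2 | h2
    · refine ⟨1, Or.inl rfl, ?_⟩
      convert h2 using 2
      push_cast
      ring
    · refine ⟨-1, Or.inr rfl, ?_⟩
      convert h2 using 1
      push_cast
      ring
  have hgood : ∀ ℓ : ℕ, ℓ.Prime → ℓ ∉ badSet W p → W.IsGoodPrimeFor ℓ ∧ ℓ ≠ p := by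
    intro ℓ hℓ hℓS
    rw [badSet, Finset.mem_insert, not_or] at hℓS
    refine ⟨fun hbad => hℓS.2 ?_, hℓS.1⟩
    rw [Nat.mem_primeFactors]
    exact ⟨hℓ, Int.natCast_dvd.mp hbad, Int.natAbs_ne_zero.mpr hΔ⟩
  obtain ⟨Dt⟩ := nonempty_torsDatum' N
  obtain ⟨y, hy0, hy⟩ := exists_eigenvector_of_eigenform Dt f hf 𝔪 h𝔪 hpm
    {ℓ : ℕ | ℓ.Prime ∧ ¬ ℓ ∣ N ∧ (ℓ ∉ badSet W p ∨ ℓ = q')}
    (fun ℓ => if ℓ = q' then e * (q' + 1) else W.apOfModel ℓ) (by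
      rintro ℓ ⟨hℓ, hℓN, hℓS⟩
      refine ⟨hℓ, hℓN, ?_⟩
      by_cases hq : ℓ = q'
      · subst hq
        rw [if_pos rfl]
        exact ⟨b, hb1, hbe⟩
      · rw [if_neg hq]
        obtain ⟨h1, h2⟩ := hgood ℓ hℓ (hℓS.resolve_right hq)
        exact hcong ℓ hℓ h1 hℓN h2)
  refine ⟨e, he, Dt.e p y, ?_, ?_, ?_⟩
  · intro h1
    exact hy0 ((Dt.e p).injective (by rw [h1, _root_.map_zero]))
  · intro ℓ _ hℓ hℓN hℓS
    rw [← Dt.e_T p ℓ hℓ hℓN, hy ℓ ⟨hℓ, hℓN, Or.inl hℓS⟩, Int.cast_smul_eq_zsmul, map_zsmul]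
    by_cases hq : ℓ = q'
    · subst hq
      rw [if_pos rfl]
      -- the two integers are congruent modulo `p`
      obtain ⟨h1, h2⟩ := hgood ℓ hℓ hℓS
      obtain ⟨b', hb'1, hb'2⟩ := hcong ℓ hℓ h1 hℓN h2
      have hbb : b' = b := Subtype.ext (hb'1.trans hb1.symm)
      rw [hbb] at hb'2
      have h3 : (((e * (ℓ + 1) - W.apOfModel ℓ : ℤ)) : integralClosure ℤ ℂ) ∈ 𝔪 := by
        have : (((e * (ℓ + 1) - W.apOfModel ℓ : ℤ)) : integralClosure ℤ ℂ) =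
            (b - ((W.apOfModel ℓ : ℤ) : integralClosure ℤ ℂ))
              - (b - ((e * (ℓ + 1) : ℤ) : integralClosure ℤ ℂ)) := by
          push_cast
          ring
        rw [this]
        exact 𝔪.sub_mem hb'2 hbe
      obtain ⟨m, hm⟩ := dvd_of_intCast_mem hp 𝔪 h𝔪 hpm _ h3
      have h4 : e * ((ℓ : ℤ) + 1) = W.apOfModel ℓ + p * m := by rw [← hm]; ring
      rw [h4, add_zsmul, mul_comm, mul_zsmul, natCast_zsmul, KV.nsmul_eq_zero, zsmul_zero, add_zero]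
    · rw [if_neg hq]
  · rw [← Dt.e_T p q' hq' hq'N, hy q' ⟨hq', hq'N, Or.inr rfl⟩, if_pos rfl, Int.cast_smul_eq_zsmul,
      map_zsmul]

end Fermat.Agent.S41.Input
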