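import Fermat.Agent.S41.Contracts
import Fermat.Agent.S41.Input.Main

/-!
# S41 / Input / EigenIn : the top-level contract `S41.EigenInC`, and the bridge `Eig` ↔ `MR.Glue.eigenKV`
-/

set_option autoImplicit false

namespace Fermat.Agent.S41.Input

open AlgebraicCurve ModularCurve Fermat.Agent.S24 Fermat.Agent.GAL Fermat.Agent.GAL.Hecke
open Fermat.Agent.MR.Glue Fermat.Agent.GAL.Tors
open CuspForm CongruenceSubgroup ModularFormClass

/-- **Contract `EigenInC`** of `S41/Contracts.lean`. -/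
theorem eigenInC : EigenInC := by
  intro W p N q' _ hp _ hq' hq'N _ f 𝔪 hf h𝔪 hpm hcong hLR
  have : Fact p.Prime := ⟨hp⟩
  have : NeZero p := ⟨hp.ne_zero⟩
  have : NeZero q' := ⟨hq'.ne_zero⟩
  obtain ⟨b, hb1, hb2⟩ := hLR
  obtain ⟨e, he, hbe⟩ : ∃ e : ℤ, (e = 1 ∨ e = -1) ∧
      b - ((e * (q' + 1) : ℤ) : integralClosure ℤ ℂ) ∈ 𝔪 := by
    have h1 : (b - ((q' : integralClosure ℤ ℂ) + 1)) * (b + ((q' : integralClosure ℤ ℂ) + 1)) ∈ 𝔪 := by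
      have : (b - ((q' : integralClosure ℤ ℂ) + 1)) * (b + ((q' : integralClosure ℤ ℂ) + 1)) =
          b ^ 2 - ((q' : integralClosure ℤ ℂ) + 1) ^ 2 := by ring
      rw [this]
      exact hb2
    rcases h𝔪.isPrime.mem_or_mem h1 with h2 | h2
    · refine ⟨1, Or.inl rfl, ?_⟩
      convert h2 using 2
      push_cast
      ring
    · refine ⟨-1, Or.inr rfl, ?_⟩
      convert h2 using 1
      push_cast
      ring
  obtain ⟨Dt⟩ := nonempty_torsDatum' N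
  obtain ⟨y, hy0, hy⟩ := exists_eigenvector_of_eigenform Dt f hf 𝔪 h𝔪 hpm
    {ℓ : ℕ | Pr W (N * q') p ℓ ∨ ℓ = q'}
    (fun ℓ => if ℓ = q' then e * (q' + 1) else W.apOfModel ℓ) (by
      rintro ℓ (⟨hℓ, hg, hℓN, hℓp⟩ | rfl)
      · have hq : ℓ ≠ q' := fun h => hℓN (h ▸ Dvd.intro_left N rfl)
        rw [if_neg hq]
        exact ⟨hℓ, fun h => hℓN (h.mul_right q'), hcong ℓ hℓ hg (fun h => hℓN (h.mul_right q')) hℓp⟩
      · rw [if_pos rfl]
        exact ⟨hq', hq'N, b, hb1, hbe⟩)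
  refine ⟨Dt.e p y, ?_, ?_, e, he, ?_⟩
  · intro h1
    exact hy0 ((Dt.e p).injective (by rw [h1, map_zero]))
  · intro ℓ hPr
    have hℓ := hPr.1
    have hℓN : ¬ ℓ ∣ N := fun h => hPr.2.2.1 (h.mul_right q')
    have hq : ℓ ≠ q' := fun h => hPr.2.2.1 (h ▸ Dvd.intro_left N rfl)
    have : NeZero ℓ := ⟨hℓ.ne_zero⟩
    rw [heckeTtot_eq, ← Dt.e_T p ℓ hℓ hℓN, hy ℓ (Or.inl hPr), if_neg hq, Int.cast_smul_eq_zsmul, map_zsmul]
  · rw [heckeTtot_eq, ← Dt.e_T p q' hq' hq'N, hy q' (Or.inr rfl), if_pos rfl, Int.cast_smul_eq_zsmul,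
      map_zsmul]

/-- **Bridge.**  `Eig W M L p` is contained in the eigenspace `eigenKV M p S a(W)` with `S = badSet W p ∪ primeFactors L`. -/
theorem eig_le_eigenKV (W : WeierstrassCurve ℤ) (hΔ : W.Δ ≠ 0) (M L p : ℕ) [NeZero M] (hL : L ≠ 0)
    {x : KV Kbar (FN M) p} (hx : x ∈ Eig W M L p) :
    x ∈ eigenKV M p (badSet W p ∪ L.primeFactors) W.apOfModel := by
  intro ℓ _ hℓ _ hℓS
  rw [Finset.mem_union, not_or, badSet, Finset.mem_insert, not_or] at hℓS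
  rw [← heckeTtot_eq]
  refine hx ℓ ⟨hℓ, fun hbad => hℓS.1.2 ?_, fun h => hℓS.2 (Nat.mem_primeFactors.mpr ⟨hℓ, h, hL⟩), hℓS.1.1⟩
  rw [Nat.mem_primeFactors]
  exact ⟨hℓ, Int.natCast_dvd.mp hbad, Int.natAbs_ne_zero.mpr hΔ⟩

end Fermat.Agent.S41.Input
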