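import Fermat.Agent.S41.Input.Good
import Fermat.Agent.S13.FieldOfDef
import Fermat.Agent.Lib.Ell.Main
import Fermat.Agent.Lib.Ell.CardRat
import Fermat.Agent.Lib.FrobDensity.GALInterface

/-!
# S41 / Input / Ell : `E[p]` for a general elliptic curve `E/ℚ` (the analogue of `MR/Glue/BLREll.lean`)
-/

set_option autoImplicit false

namespace Fermat.Agent.S41.Input

open Fermat.Agent.GAL Fermat.Agent.MR.Glue
open WeierstrassCurve WeierstrassCurve.Affine WeierstrassCurve.Affine.Point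

/-- `E(ℚ̄)[p]`. -/
abbrev Ep (E : WeierstrassCurve ℚ) (p : ℕ) : Type :=
  Submodule.torsionBy ℤ (E⁄(AlgebraicClosure ℚ)).Point p

variable (E : WeierstrassCurve ℚ) {p : ℕ}

theorem Ep_nsmul (x : Ep E p) : p • (x : (E⁄(AlgebraicClosure ℚ)).Point) = 0 := by
  have h := x.2
  rw [Submodule.mem_torsionBy_iff, natCast_zsmul] at h
  exact h

theorem card_Ep (hE : E.Δ ≠ 0) (hp : 0 < p) : Nat.card (Ep E p) = p ^ 2 :=
  Lib.Ell.card_torsionBy_rat E hE p hp

theorem frobMod_Ep (hE : E.Δ ≠ 0) (hp : 0 < p) (W : WeierstrassCurve ℤ) (hW : W.IsIntegralModelOf E) :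
    ∃ S : Finset ℕ, FrobMod p (fun ℓ => W.apOfModel ℓ) S (Ep E p) := by
  obtain ⟨S, hS⟩ := Lib.Ell.frob_rel E hE W hW p hp
  have hfin : Finite (Ep E p) :=
    Nat.finite_of_card_ne_zero (by rw [card_Ep E hE hp]; exact pow_ne_zero 2 hp.ne')
  have hG := Fermat.Agent.Lib.Frobenius.isGalois_algebraicClosure inferInstance
  have hAlg : Algebra.IsAlgebraic ℚ (AlgebraicClosure ℚ) := hG.to_normal.toIsAlgebraic
  obtain ⟨M, hM1, hM2⟩ := Fermat.Agent.S13.exists_field_of_def (K := AlgebraicClosure ℚ) E p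
  refine ⟨S, ?_, ⟨M, hM1, fun σ hσ y => ?_⟩, ?_⟩
  · intro x
    exact Subtype.ext (Ep_nsmul E x)
  · exact hM2 σ ((IntermediateField.mem_fixingSubgroup_iff _ σ).mpr hσ) y
  · intro ℓ hℓ hℓS 𝒜 h𝒜 σ hσ x
    exact Subtype.ext (hS ℓ hℓ hℓS 𝒜 h𝒜 σ hσ x (Ep_nsmul E x))

theorem irr_Ep (hirr : GaloisRepIsIrreducible (K := AlgebraicClosure ℚ) ℚ E p)
    (U : AddSubgroup (Ep E p)) (hU : ∀ σ : GQ, ∀ x ∈ U, σ • x ∈ U) : U = ⊥ ∨ U = ⊤ := by
  rcases hirr.2 (AddSubgroup.toZModSubmodule p U) hU with h | h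
  · left
    rw [eq_bot_iff]
    intro x hx
    have : x ∈ AddSubgroup.toZModSubmodule p U := hx
    rw [h] at this
    exact this
  · right
    rw [eq_top_iff]
    intro x _
    have : x ∈ AddSubgroup.toZModSubmodule p U := by rw [h]; trivial
    exact this

theorem dim_Ep (hE : E.Δ ≠ 0) (hp : p.Prime) (v : Ep E p) : ∃ u : Ep E p, ∀ n : ℤ, u ≠ n • v := by
  by_contra hcon
  push Not at hcon
  have hfin : Finite (Ep E p) :=
    Nat.finite_of_card_ne_zero (by rw [card_Ep E hE hp.pos]; exact pow_ne_zero 2 hp.ne_zero)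
  have hpv : p • v = 0 := Subtype.ext (Ep_nsmul E v)
  have hsurj : Function.Surjective (fun i : Fin p => (i : ℕ) • v) := by
    intro u
    obtain ⟨n, hn⟩ := hcon u
    have hp0 : (0 : ℤ) < p := by exact_mod_cast hp.pos
    refine ⟨⟨(n % p).toNat, ?_⟩, ?_⟩
    · have h1 := Int.emod_lt_of_pos n hp0
      have h2 := Int.emod_nonneg n hp0.ne'
      omega
    · have h2 := Int.emod_nonneg n hp0.ne'
      change (n % p).toNat • v = u
      rw [hn, ← natCast_zsmul, Int.toNat_of_nonneg h2]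
      conv_rhs => rw [← Int.emod_add_mul_ediv n p, add_zsmul, mul_zsmul', natCast_zsmul, hpv,
        zsmul_zero, add_zero]
  have h1 := Nat.card_le_card_of_surjective _ hsurj
  rw [card_Ep E hE hp.pos, Nat.card_eq_fintype_card, Fintype.card_fin] at h1
  have := hp.one_lt
  nlinarith

/-- `E[p]` is `Good`. -/
theorem good_Ep (hE : E.Δ ≠ 0) (hp : p.Prime) (hp2 : p ≠ 2) (W : WeierstrassCurve ℤ)
    (hW : W.IsIntegralModelOf E)
    (hirr : GaloisRepIsIrreducible (K := AlgebraicClosure ℚ) ℚ E p) :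
    Good p (⊤ : AddSubgroup (Ep E p)) := by
  have : Fact p.Prime := ⟨hp⟩
  obtain ⟨S, hS⟩ := frobMod_Ep E hE hp.pos W hW
  exact good_top Fermat.Agent.Lib.FrobDensity.gal_frobeniusDensity hp2 hS (irr_Ep E hirr)
    (dim_Ep E hE hp)

/-- **BLR.** -/
theorem embed_Ep (hE : E.Δ ≠ 0) (hp : p.Prime) (hp2 : p ≠ 2)
    (hirr : GaloisRepIsIrreducible (K := AlgebraicClosure ℚ) ℚ E p)
    (W : WeierstrassCurve ℤ) (hW : W.IsIntegralModelOf E) {B : Finset ℕ} {X : Type*}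
    [AddCommGroup X] [DistribMulAction GQ X] (hX : FrobMod p (fun ℓ => W.apOfModel ℓ) B X)
    [Nontrivial X] :
    ∃ φ : Ep E p →+ X, Function.Injective φ ∧ ∀ (σ : GQ) (x : Ep E p), φ (σ • x) = σ • φ x := by
  have : Fact p.Prime := ⟨hp⟩
  obtain ⟨S, hS⟩ := frobMod_Ep E hE hp.pos W hW
  exact exists_embedding_GQ Fermat.Agent.Lib.FrobDensity.gal_frobeniusDensity hp2
    ⟨hS.tors, hS.cont, fun ℓ hℓ hℓB => hS.frob ℓ hℓ fun hm => hℓB (Finset.mem_union_left B hm)⟩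
    ⟨hX.tors, hX.cont, fun ℓ hℓ hℓB => hX.frob ℓ hℓ fun hm => hℓB (Finset.mem_union_right S hm)⟩
    (irr_Ep E hirr) (dim_Ep E hE hp)

end Fermat.Agent.S41.Input
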