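import Fermat.Agent.MR.Glue.Defs
import Fermat.Agent.MR.Glue.BLRGal

/-!
# S41 / Input / Contract : the exports of block INPUT (report 382, helper7's plan)

Everything is stated WITHOUT the elliptic curve on the consumer side:

* `badSet W p`      : `{p} ∪ {bad primes of W}`; the eigen-system is `ℓ ↦ W.apOfModel ℓ`, `ℓ ∉ badSet W p`, `ℓ ∤ level`
                      (`MR.Glue.eigenKV n p (badSet W p) W.apOfModel`).
* `Stable U`        : `U` is stable under `G_ℚ`.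
* `IsConj c`        : `c` is a complex conjugation (an involution inverting all roots of unity).
* `Good p U`        : `U` is a `G_ℚ`-stable subgroup which "is a copy of `E[p]`": irreducible, `End_G = 𝔽_p` (Schur),
                      `det = χ` (in the only form which is used: a Frobenius at `ℓ ≠ p` acting as a scalar `s` has `s² = ℓ`),
                      every complex conjugation has both eigenvalues `+1` and `-1`.
* `X0Statement`     : (I1) the eigen-system of `f` occurs in `V_p(F(N))`, together with `T_{q'} = e (q'+1)`, `e = ±1`.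
* `BLRStatement`    : (I2) every nonzero stable subgroup of an eigenspace `eigenKV n p S a(W)` (any level `n`, any finite `S`)
                      contains a `Good` subgroup.
* `AuxStatement`    : (I3) the auxiliary prime `r` : a Frobenius `φ` at `A ∣ r`, `r ∉ B`, acting on `V_p(F(n))` as a complex
                      conjugation `c`, and `r ≡ -1 (mod p)`.

The proofs are in `S41/Input/Main.lean` (`x0Statement`, `blrStatement`, `auxStatement`, `Good.map`).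
-/

set_option autoImplicit false

namespace Fermat.Agent.S41.Input

open AlgebraicCurve ModularCurve Fermat.Agent.S24 Fermat.Agent.GAL Fermat.Agent.MR.Glue
open CuspForm CongruenceSubgroup ModularFormClass
open WeierstrassCurve WeierstrassCurve.Affine WeierstrassCurve.Affine.Point

/-- The primes which are excluded from the eigen-system. -/
def badSet (W : WeierstrassCurve ℤ) (p : ℕ) : Finset ℕ := insert p W.Δ.natAbs.primeFactors

/-- `U` is stable under `G_ℚ`. -/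
def Stable {X : Type*} [AddCommGroup X] [DistribMulAction GQ X] (U : AddSubgroup X) : Prop :=
  ∀ σ : GQ, ∀ x ∈ U, σ • x ∈ U

/-- `c` is a complex conjugation. -/
def IsConj (c : GQ) : Prop :=
  c * c = 1 ∧ ∀ (m : ℕ) (t : AlgebraicClosure ℚ), m ≠ 0 → t ^ m = 1 → c t = t⁻¹

/-- `U` is "a copy of `E[p]`" (absolutely irreducible, odd, `det = χ`). -/
structure Good (p : ℕ) {X : Type*} [AddCommGroup X] [DistribMulAction GQ X] (U : AddSubgroup X) :
    Prop where
  ne_bot : U ≠ ⊥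
  stable : Stable U
  tors : ∀ x ∈ U, p • x = 0
  irr : ∀ U' : AddSubgroup X, U' ≤ U → Stable U' → U' = ⊥ ∨ U' = U
  schur : ∀ u : U →+ X, (∀ x, u x ∈ U) →
    (∀ (σ : GQ) (x y : U), (y : X) = σ • (x : X) → u y = σ • u x) → ∃ s : ℤ, ∀ x : U, u x = s • (x : X)
  det : ∀ (ℓ : ℕ) (A : ValuationSubring (AlgebraicClosure ℚ)) (σ : GQ) (s : ℤ), ℓ.Prime → ℓ ≠ p →
    A.LiesOverPrime ℓ → A.IsFrobeniusAt σ ℓ → (∀ x ∈ U, σ • x = s • x) → (p : ℤ) ∣ s ^ 2 - ℓ
  conj : ∀ c : GQ, IsConj c → (∃ x ∈ U, x ≠ 0 ∧ c • x = x) ∧ ∃ x ∈ U, x ≠ 0 ∧ c • x = -x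

/-- **(I1)** the eigen-system of `f` occurs in `V_p(F(N))`. -/
def X0Statement : Prop :=
  ∀ (W : WeierstrassCurve ℤ), W.Δ ≠ 0 → ∀ {p N q' : ℕ} [NeZero N] [NeZero q'], p.Prime → q'.Prime → ¬ q' ∣ N →
    ∀ (f : CuspForm (Gamma0 N) 2) (𝔪 : Ideal (integralClosure ℤ ℂ)),
    f.IsNormalizedEigenform → 𝔪.IsMaximal → (p : integralClosure ℤ ℂ) ∈ 𝔪 →
    (∀ ℓ : ℕ, ℓ.Prime → W.IsGoodPrimeFor ℓ → ¬ ℓ ∣ N → ℓ ≠ p →
      ∃ a : integralClosure ℤ ℂ, (a : ℂ) = qCoeff f ℓ ∧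
        a - ((W.apOfModel ℓ : ℤ) : integralClosure ℤ ℂ) ∈ 𝔪) →
    (∃ a : integralClosure ℤ ℂ, (a : ℂ) = qCoeff f q' ∧
      a ^ 2 - ((q' : integralClosure ℤ ℂ) + 1) ^ 2 ∈ 𝔪) →
    ∃ e : ℤ, (e = 1 ∨ e = -1) ∧ ∃ x₀ : KV Kbar (FN N) p, x₀ ≠ 0 ∧
      x₀ ∈ eigenKV N p (badSet W p) W.apOfModel ∧ heckeT Kbar N q' p x₀ = (e * (q' + 1)) • x₀

/-- **(I2)** BLR. -/
def BLRStatement : Prop :=
  ∀ (E : WeierstrassCurve ℚ) [E.IsElliptic] (W : WeierstrassCurve ℤ), W.IsIntegralModelOf E →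
    ∀ {p : ℕ}, p.Prime → p ≠ 2 → GaloisRepIsIrreducible (K := AlgebraicClosure ℚ) ℚ E p →
    ∀ (n : ℕ) [NeZero n] (S : Finset ℕ) (U : AddSubgroup (KV Kbar (FN n) p)), U ≠ ⊥ →
      U ≤ eigenKV n p S W.apOfModel → Stable U → ∃ U' : AddSubgroup (KV Kbar (FN n) p), U' ≤ U ∧ Good p U'

/-- **(I3)** the auxiliary prime. -/
def AuxStatement : Prop :=
  ∀ {p : ℕ}, p.Prime → ∀ (n : ℕ) [NeZero n] (B : Finset ℕ),
    ∃ (c : GQ) (r : ℕ) (A : ValuationSubring (AlgebraicClosure ℚ)) (φ : GQ),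
      IsConj c ∧ r.Prime ∧ r ∉ B ∧ A.LiesOverPrime r ∧ A.IsFrobeniusAt φ r ∧ (p : ℤ) ∣ r + 1 ∧
      ∀ x : KV Kbar (FN n) p, φ • x = c • x

end Fermat.Agent.S41.Input
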