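import Fermat.Agent.MR.Glue.BLRAbs

/-!
# S41 / Input / Abs : abstract complements to `MR/Glue/BLRAbs.lean`

`ρ : G →* End_k M` such that every `g` satisfies a quadratic relation `g² - a g + d(g) = 0`, `M` irreducible, `c` an element with two
distinct eigenvalues `μ ≠ ν`, `a c = μ + ν`, `d c = μ ν`.

* `abs_conj`      : both eigenvalues of `c` occur;
* `abs_schur`     : an endomorphism commuting with `G` is a scalar;
* `abs_scalar_sq` : if `ρ σ = s` is a scalar then `s² = d σ`.
-/

set_option autoImplicit false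

namespace Fermat.Agent.S41.Input

open Fermat.Agent.MR.Glue

variable {k G M : Type*} [Field k] [Group G] [AddCommGroup M] [Module k M]
variable (ρ : G →* Module.End k M) (d : G →* k)

theorem abs_conj (c : G) (hdc : d c = -1) (h2 : (ρ c - 1) * (ρ c - d c • 1) = 0) (h3 : ρ c ≠ 1)
    (h4 : ρ c ≠ d c • 1) : (∃ x : M, x ≠ 0 ∧ ρ c x = x) ∧ ∃ x : M, x ≠ 0 ∧ ρ c x = -x := by
  have hcomm : (ρ c - d c • 1) * (ρ c - 1) = (ρ c - 1) * (ρ c - d c • 1) := by
    simp only [sub_mul, mul_sub, smul_mul_assoc, mul_smul_comm, one_mul, mul_one]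
    module
  constructor
  · obtain ⟨v, hv⟩ : ∃ v, (ρ c - d c • 1) v ≠ 0 := by
      by_contra h
      push Not at h
      exact h4 (sub_eq_zero.mp (LinearMap.ext h))
    refine ⟨_, hv, ?_⟩
    have h5 := LinearMap.congr_fun h2 v
    rw [Module.End.mul_apply, LinearMap.sub_apply, Module.End.one_apply, LinearMap.zero_apply,
      sub_eq_zero] at h5
    exact h5
  · obtain ⟨v, hv⟩ : ∃ v, (ρ c - 1) v ≠ 0 := by
      by_contra h
      push Not at h
      exact h3 (sub_eq_zero.mp (LinearMap.ext h))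
    refine ⟨_, hv, ?_⟩
    have h5 := LinearMap.congr_fun (hcomm.trans h2) v
    rw [Module.End.mul_apply, LinearMap.sub_apply, LinearMap.smul_apply, Module.End.one_apply,
      LinearMap.zero_apply, sub_eq_zero, hdc, neg_smul, one_smul] at h5
    exact h5

theorem abs_schur (a : G → k)
    (hq : ∀ g, ρ g * ρ g - a g • ρ g + d g • (1 : Module.End k M) = 0)
    (hirr : ∀ U : Submodule k M, (∀ g, ∀ x ∈ U, ρ g x ∈ U) → U = ⊥ ∨ U = ⊤) (c : G)
    (μ ν : k) (hμν : μ ≠ ν) (hs : a c = μ + ν) (hp : d c = μ * ν) (he : proj ρ c μ ν ≠ 0)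
    (u : Module.End k M) (hu : ∀ g, u * ρ g = ρ g * u) : ∃ s : k, u = s • 1 := by
  obtain ⟨v, hv⟩ : ∃ v, proj ρ c μ ν v ≠ 0 := by
    by_contra h
    push Not at h
    exact he (LinearMap.ext h)
  set x := proj ρ c μ ν v with hx
  have hex : proj ρ c μ ν x = x := by
    rw [hx, ← Module.End.mul_apply, proj_mul_proj ρ d a hq c μ ν hμν hs hp]
  have hue : u * proj ρ c μ ν = proj ρ c μ ν * u := by
    unfold proj
    rw [mul_smul_comm, smul_mul_assoc, mul_sub, sub_mul, hu c, mul_smul_comm, smul_mul_assoc, mul_one,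
      one_mul]
  have key : ∀ y, proj ρ c μ ν y ∈ Submodule.span k {x} := by
    have h1 : orbitSpan ρ x ≤ (Submodule.span k {x}).comap (proj ρ c μ ν) := by
      rw [orbitSpan, Submodule.span_le]
      rintro _ ⟨g, rfl⟩
      have h2 := LinearMap.congr_fun (proj_mul_mul_proj ρ d a hq c μ ν hs hp g) x
      simp only [Module.End.mul_apply, LinearMap.smul_apply] at h2
      rw [hex] at h2
      change proj ρ c μ ν (ρ g x) ∈ Submodule.span k {x}
      rw [h2]
      exact Submodule.smul_mem _ _ (Submodule.mem_span_singleton_self x)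
    rw [orbitSpan_eq_top ρ hirr x hv] at h1
    exact fun y => h1 (Submodule.mem_top (x := y))
  obtain ⟨s, hs'⟩ := Submodule.mem_span_singleton.mp (key (u x))
  have hux : u x = s • x := by
    have h3 := LinearMap.congr_fun hue x
    rw [Module.End.mul_apply, Module.End.mul_apply, hex] at h3
    rw [h3, hs']
  refine ⟨s, sub_eq_zero.mp (eq_zero_of_orbit ρ hirr x hv (u - s • 1) fun g => ?_)⟩
  have h4 := LinearMap.congr_fun (hu g) x
  rw [Module.End.mul_apply, Module.End.mul_apply] at h4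
  rw [LinearMap.sub_apply, LinearMap.smul_apply, Module.End.one_apply, h4, hux, map_smul, sub_self]

theorem abs_scalar_sq
    (hq : ∀ g, ∃ a : k, ρ g * ρ g - a • ρ g + d g • (1 : Module.End k M) = 0)
    (h : G) (hh : ∀ r : k, ρ h ≠ r • 1) (σ : G) (s : k) (hσ : ρ σ = s • 1) : s * s = d σ := by
  obtain ⟨a, ha⟩ := hq h
  obtain ⟨a', ha'⟩ := hq (σ * h)
  rw [map_mul, map_mul, hσ, smul_mul_assoc, one_mul, smul_mul_assoc, mul_smul_comm, smul_smul,
    smul_smul] at ha'
  have hdh : d h ≠ 0 := by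
    intro h0
    have : d h * d h⁻¹ = 1 := by rw [← map_mul, mul_inv_cancel, map_one]
    rw [h0, zero_mul] at this
    exact zero_ne_one this
  have h1 : (s * s * a - a' * s) • ρ h = ((s * s - d σ) * d h) • (1 : Module.End k M) := by
    rw [← sub_eq_zero]
    have : (s * s * a - a' * s) • ρ h - ((s * s - d σ) * d h) • (1 : Module.End k M) =
        ((s * s) • (ρ h * ρ h) - (a' * s) • ρ h + (d σ * d h) • (1 : Module.End k M))
          - (s * s) • (ρ h * ρ h - a • ρ h + d h • 1) := by
      module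
    rw [this, ha, ha', smul_zero, sub_zero]
  by_contra hne
  have hne' : (s * s - d σ) * d h ≠ 0 := mul_ne_zero (sub_ne_zero.mpr hne) hdh
  by_cases h3 : s * s * a - a' * s = 0
  · rw [h3, zero_smul] at h1
    have h4 := (smul_eq_zero.mp h1.symm).resolve_left hne'
    apply hh 0
    rw [zero_smul]
    calc ρ h = ρ h * 1 := (mul_one _).symm
      _ = 0 := by rw [h4, mul_zero]
  · apply hh ((s * s * a - a' * s)⁻¹ * ((s * s - d σ) * d h))
    rw [mul_smul, ← h1, smul_smul, inv_mul_cancel₀ h3, one_smul]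

/-- an element killed by `(X - 1)(X + 1)` which is not `±1` is not a scalar. -/
theorem abs_not_scalar (c : G) (hdc : d c = -1) (h2 : (ρ c - 1) * (ρ c - d c • 1) = 0) (h3 : ρ c ≠ 1)
    (h4 : ρ c ≠ d c • 1) (r : k) : ρ c ≠ r • 1 := by
  intro hr
  have hnt : (1 : Module.End k M) ≠ 0 := by
    intro h1
    apply h3
    calc ρ c = ρ c * 1 := (mul_one _).symm
      _ = 0 := by rw [h1, mul_zero]
      _ = 1 := h1.symm
  rw [hdc] at h2 h4
  rw [hr] at h2 h3 h4
  have h5 : ((r - 1) * (r + 1)) • (1 : Module.End k M) = 0 := by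
    rw [← h2]
    simp only [sub_mul, mul_sub, mul_smul_comm, one_mul, mul_one]
    module
  rcases mul_eq_zero.mp ((smul_eq_zero.mp h5).resolve_right hnt) with h6 | h6
  · apply h3
    rw [sub_eq_zero.mp h6, one_smul]
  · apply h4
    rw [eq_neg_of_add_eq_zero_left h6]

end Fermat.Agent.S41.Input
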