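import Fermat.Agent.S41.Input.Contract
import Fermat.Agent.S41.Input.Abs

/-!
# S41 / Input / Good : `Good.map` (transport along an equivariant map injective on `U`) and `good_top`
-/

set_option autoImplicit false

namespace Fermat.Agent.S41.Input

open Fermat.Agent.GAL Fermat.Agent.MR.Glue

variable {p : ℕ}

/-- **Transport of `Good`** along an additive map which is equivariant and injective on `U`. -/
theorem Good.map {X Y : Type*} [AddCommGroup X] [DistribMulAction GQ X] [AddCommGroup Y]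
    [DistribMulAction GQ Y] {U : AddSubgroup X} (h : Good p U) (f : X →+ Y)
    (hf : ∀ (σ : GQ), ∀ x ∈ U, f (σ • x) = σ • f x) (hinj : ∀ x ∈ U, f x = 0 → x = 0) :
    Good p (U.map f) := by
  have hinj' : ∀ x ∈ U, ∀ y ∈ U, f x = f y → x = y := fun x hx y hy hxy =>
    sub_eq_zero.mp (hinj _ (U.sub_mem hx hy) (by rw [map_sub, hxy, sub_self]))
  refine ⟨?_, ?_, ?_, ?_, ?_, ?_, ?_⟩
  · intro hbot
    apply h.ne_bot
    rw [eq_bot_iff]
    intro x hx
    have h1 : f x ∈ U.map f := ⟨x, hx, rfl⟩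
    rw [hbot, AddSubgroup.mem_bot] at h1
    rw [AddSubgroup.mem_bot]
    exact hinj x hx h1
  · rintro σ _ ⟨x, hx, rfl⟩
    exact ⟨σ • x, h.stable σ x hx, hf σ x hx⟩
  · rintro _ ⟨x, hx, rfl⟩
    rw [← map_nsmul, h.tors x hx, map_zero]
  · intro U'' hle hst
    rcases h.irr (U''.comap f ⊓ U) inf_le_right (by
      rintro σ x ⟨hx1, hx2⟩
      refine ⟨?_, h.stable σ x hx2⟩
      change f (σ • x) ∈ U''
      rw [hf σ x hx2]
      exact hst σ _ hx1) with h0 | h1
    · left
      rw [eq_bot_iff]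
      intro y hy
      obtain ⟨x, hx, rfl⟩ := hle hy
      have h2 : x ∈ U''.comap f ⊓ U := ⟨hy, hx⟩
      rw [h0, AddSubgroup.mem_bot] at h2
      rw [h2, map_zero]
      exact AddSubgroup.zero_mem _
    · right
      refine le_antisymm hle ?_
      rintro _ ⟨x, hx, rfl⟩
      have h2 : x ∈ U''.comap f ⊓ U := by rw [h1]; exact hx
      exact h2.1
  · intro u hu1 hu2
    have hex : ∀ x : U, ∃ x' : X, x' ∈ U ∧ f x' = u ⟨f x, ⟨x, x.2, rfl⟩⟩ := by
      intro x
      obtain ⟨x', hx', he⟩ := hu1 ⟨f x, ⟨x, x.2, rfl⟩⟩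
      exact ⟨x', hx', he⟩
    choose g hg1 hg2 using hex
    let u' : U →+ X := AddMonoidHom.mk' g (by
      intro x y
      apply hinj' _ (hg1 _) _ (U.add_mem (hg1 x) (hg1 y))
      rw [map_add, hg2, hg2, hg2, ← map_add]
      congr 1
      apply Subtype.ext
      change f ((x : X) + (y : X)) = f x + f y
      rw [map_add])
    obtain ⟨s, hs⟩ := h.schur u' hg1 (by
      intro σ x y hxy
      change g y = σ • g x
      apply hinj' _ (hg1 _) _ (h.stable σ _ (hg1 x))
      rw [hf σ _ (hg1 x), hg2, hg2]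
      apply hu2
      change f y = σ • f x
      rw [hxy, hf σ _ x.2])
    refine ⟨s, ?_⟩
    rintro ⟨_, x, hx, rfl⟩
    have h3 : g ⟨x, hx⟩ = s • x := hs ⟨x, hx⟩
    have h4 := hg2 ⟨x, hx⟩
    rw [h3, map_zsmul] at h4
    exact h4.symm
  · intro ℓ A σ s hℓ hℓp hA hσ hall
    apply h.det ℓ A σ s hℓ hℓp hA hσ
    intro x hx
    apply hinj' _ (h.stable σ x hx) _ (U.zsmul_mem hx s)
    rw [hf σ x hx, map_zsmul]
    exact hall _ ⟨x, hx, rfl⟩
  · intro c hc
    obtain ⟨⟨x, hx, hx0, hcx⟩, ⟨y, hy, hy0, hcy⟩⟩ := h.conj c hc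
    refine ⟨⟨f x, ⟨x, hx, rfl⟩, fun h0 => hx0 (hinj x hx h0), by rw [← hf c x hx, hcx]⟩,
      ⟨f y, ⟨y, hy, rfl⟩, fun h0 => hy0 (hinj y hy h0), by rw [← hf c y hy, hcy, map_neg]⟩⟩

/-- `Good` only depends on the subgroup: Schur for endomorphisms of the ambient group. -/
theorem Good.schur' {X : Type*} [AddCommGroup X] [DistribMulAction GQ X] {U : AddSubgroup X}
    (h : Good p U) (u : X →+ X) (hu1 : ∀ x ∈ U, u x ∈ U)
    (hu2 : ∀ (σ : GQ), ∀ x ∈ U, u (σ • x) = σ • u x) : ∃ s : ℤ, ∀ x ∈ U, u x = s • x := by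
  obtain ⟨s, hs⟩ := h.schur (u.comp U.subtype) (fun x => hu1 x x.2) (by
    intro σ x y hxy
    change u y = σ • u x
    rw [hxy, hu2 σ x x.2])
  exact ⟨s, fun x hx => hs ⟨x, hx⟩⟩

theorem dP_conj [Fact p.Prime] {c : GQ} (hc : IsConj c) : dP p c = -1 := by
  change ((Cyclo.epsK p (ZMod p) c : (ZMod p)ˣ) : ZMod p) = -1
  rw [Cyclo.epsK_eq_neg_one p (ZMod p) (Cyclo.eps_eq_neg_one_of_inv p hc.2)]
  simp

/-- **An irreducible, non cyclic `FrobMod` is `Good`.** -/
theorem good_top [Fact p.Prime] (hFD : FrobeniusDensity) (hp2 : p ≠ 2) {a : ℕ → ℤ} {B : Finset ℕ}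
    {E : Type*} [AddCommGroup E] [DistribMulAction GQ E] (hE : FrobMod p a B E)
    (hirr : ∀ U : AddSubgroup E, (∀ σ : GQ, ∀ x ∈ U, σ • x ∈ U) → U = ⊥ ∨ U = ⊤)
    (hdim : ∀ v : E, ∃ u : E, ∀ n : ℤ, u ≠ n • v) : Good p (⊤ : AddSubgroup E) := by
  classical
  have instM : Module (ZMod p) E := AddCommGroup.zmodModule hE.tors
  have hq : ∀ g, ∃ a' : ZMod p, repOf p E g * repOf p E g - a' • repOf p E g
      + dP p g • (1 : Module.End (ZMod p) E) = 0 :=
    fun g => (common_quad hFD hE hE g).imp fun _ h => h.1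
  have hprops : ∀ c : GQ, IsConj c → (dP p c ≠ 1 ∧ (repOf p E c - 1) * (repOf p E c - dP p c • 1) = 0 ∧
      repOf p E c ≠ 1 ∧ repOf p E c ≠ dP p c • 1) := fun c hc =>
    conj_props (repOf p E) (dP p) (two_ne_zero_zmod hp2) hq (irr_submodule hirr) (dim_submodule hdim)
      c hc.1 (dP_conj hc)
  obtain ⟨c₀, hc₀⟩ : ∃ c : GQ, IsConj c := Cyclo.exists_conj_inv
  refine ⟨?_, fun _ _ _ => AddSubgroup.mem_top _, fun x _ => hE.tors x, fun U' _ hU' => hirr U' hU', ?_,
    ?_, ?_⟩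
  · intro hbot
    obtain ⟨u, hu⟩ := hdim 0
    apply hu 0
    rw [smul_zero]
    have : u ∈ (⊤ : AddSubgroup E) := AddSubgroup.mem_top u
    rwa [hbot, AddSubgroup.mem_bot] at this
  · intro u _ hu2
    obtain ⟨h1, h2, h3, h4⟩ := hprops c₀ hc₀
    have hdc := dP_conj (p := p) hc₀
    choose a' ha' using hq
    let u₁ : Module.End (ZMod p) E :=
      (u.comp (AddSubgroup.topEquiv.symm.toAddMonoidHom)).toZModLinearMap p
    have hu₁ : ∀ x : E, u₁ x = u ⟨x, AddSubgroup.mem_top x⟩ := fun _ => rfl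
    obtain ⟨s, hs⟩ := abs_schur (repOf p E) (dP p) (Function.update a' c₀ 0) (by
        intro g
        by_cases hg : g = c₀
        · subst hg
          rw [Function.update_self, zero_smul, sub_zero, ← map_mul, hc₀.1, map_one, hdc, neg_smul, one_smul,
            add_neg_cancel]
        · rw [Function.update_of_ne hg]
          exact ha' g) (irr_submodule hirr) c₀ 1 (-1)
      (by
        intro h
        apply two_ne_zero_zmod hp2
        linear_combination h)
      (by rw [Function.update_self, add_neg_cancel]) (by rw [hdc, one_mul])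
      (by
        unfold proj
        intro h
        rcases smul_eq_zero.mp h with h5 | h5
        · apply two_ne_zero_zmod hp2
          have h6 := inv_eq_zero.mp h5
          linear_combination h6
        · apply h4
          rw [hdc]
          exact sub_eq_zero.mp h5)
      u₁ (by
        intro g
        apply LinearMap.ext
        intro x
        rw [Module.End.mul_apply, Module.End.mul_apply, repOf_apply, repOf_apply, hu₁, hu₁]
        exact hu2 g ⟨x, AddSubgroup.mem_top x⟩ ⟨g • x, AddSubgroup.mem_top _⟩ rfl)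
    obtain ⟨n, rfl⟩ := ZMod.intCast_surjective s
    refine ⟨n, fun x => ?_⟩
    have h5 := LinearMap.congr_fun hs (x : E)
    rw [hu₁, LinearMap.smul_apply, Module.End.one_apply, Int.cast_smul_eq_zsmul] at h5
    exact h5
  · intro ℓ A σ s hℓ hℓp hA hσ hall
    obtain ⟨h1, h2, h3, h4⟩ := hprops c₀ hc₀
    have h5 := abs_scalar_sq (repOf p E) (dP p) hq c₀
      (abs_not_scalar (repOf p E) (dP p) c₀ (dP_conj hc₀) h2 h3 h4) σ (s : ZMod p) (by
        apply LinearMap.ext
        intro x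
        rw [repOf_apply, LinearMap.smul_apply, Module.End.one_apply, Int.cast_smul_eq_zsmul]
        exact hall x (AddSubgroup.mem_top x))
    have h6 : dP p σ = (ℓ : ZMod p) := Cyclo.epsK_frobenius p (ZMod p) hℓ hℓp hA hσ
    rw [h6] at h5
    rw [← ZMod.intCast_zmod_eq_zero_iff_dvd]
    push_cast
    rw [sq, h5, sub_self]
  · intro c hc
    obtain ⟨h1, h2, h3, h4⟩ := hprops c hc
    obtain ⟨⟨x, hx0, hx⟩, ⟨y, hy0, hy⟩⟩ := abs_conj (repOf p E) (dP p) c (dP_conj hc) h2 h3 h4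
    exact ⟨⟨x, AddSubgroup.mem_top x, hx0, hx⟩, ⟨y, AddSubgroup.mem_top y, hy0, hy⟩⟩

end Fermat.Agent.S41.Input
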